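import Fermat.Agent.Root.SummaryCarterKeller
import Mathlib.Data.ZMod.Basic
import Mathlib.LinearAlgebra.Matrix.SpecialLinearGroup

/-!
# Congruence kernels and elementary normal subgroups of `SL n ℤ`
-/

set_option autoImplicit false

noncomputable section

namespace FA.CongruenceSL

open Matrix FA.CarterKeller

variable {n : ℕ}

/-- The elementary matrix. -/
def tv (i j : Fin n) (h : i ≠ j) (t : ℤ) : SpecialLinearGroup (Fin n) ℤ :=
  ⟨transvection i j t, det_transvection_of_ne _ _ h _⟩

theorem tv_val (i j : Fin n) (h : i ≠ j) (t : ℤ) : (tv i j h t).1 = transvection i j t := rfl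

theorem tv_zero (i j : Fin n) (h : i ≠ j) : tv i j h 0 = 1 :=
  Subtype.ext (transvection_zero _ _)

theorem tv_add (i j : Fin n) (h : i ≠ j) (s t : ℤ) : tv i j h (s + t) = tv i j h s * tv i j h t :=
  Subtype.ext (transvection_mul_transvection_same _ _ h s t).symm

theorem tv_neg (i j : Fin n) (h : i ≠ j) (t : ℤ) : tv i j h (-t) = (tv i j h t)⁻¹ := by
  refine eq_inv_of_mul_eq_one_left ?_
  rw [← tv_add, neg_add_cancel, tv_zero]

theorem tv_mul_int (i j : Fin n) (h : i ≠ j) (k t : ℤ) : tv i j h (k * t) = tv i j h t ^ k := by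
  induction k with
  | zero => simp [tv_zero]
  | succ k ih => rw [add_mul, one_mul, tv_add, ih, _root_.zpow_add_one]
  | pred k ih => rw [sub_mul, one_mul, sub_eq_add_neg, tv_add, ih, tv_neg, _root_.zpow_sub_one]

/-- The commutator of two adjacent elementary matrices. -/
theorem tv_commutator {i j k : Fin n} (hij : i ≠ j) (hjk : j ≠ k) (hik : i ≠ k) (s t : ℤ) :
    tv i j hij s * tv j k hjk t * (tv i j hij s)⁻¹ * (tv j k hjk t)⁻¹ = tv i k hik (s * t) := by
  rw [← tv_neg, ← tv_neg]
  apply Subtype.ext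
  simp [tv, transvection, mul_add, add_mul, single_mul_single_same, single_mul_single_of_ne,
    hij.symm, hjk.symm, hik.symm, ← single_neg]
  abel

/-- **Every element is a product of elementary matrices.** -/
theorem induction_tv (hn : 3 ≤ n) {p : SpecialLinearGroup (Fin n) ℤ → Prop} (h1 : p 1)
    (hmul : ∀ i j (h : i ≠ j) (t : ℤ) g, p g → p (tv i j h t * g))
    (g : SpecialLinearGroup (Fin n) ℤ) : p g := by
  obtain ⟨N, hN⟩ := FA.Summary.carter_keller hn
  obtain ⟨L, -, hne, hg⟩ := hN g.1 g.2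
  induction L generalizing g with
  | nil =>
    rw [show g = 1 from Subtype.ext hg]
    exact h1
  | cons x L ih =>
    set a := tv x.1 x.2.1 (hne x List.mem_cons_self) x.2.2
    have hb : (a⁻¹ * g).1 = (L.map fun x => transvection x.1 x.2.1 x.2.2).prod := by
      rw [SpecialLinearGroup.coe_mul, hg, List.map_cons, List.prod_cons, ← mul_assoc,
        show (a⁻¹).1 * transvection x.1 x.2.1 x.2.2 = 1 from
          congrArg Subtype.val (inv_mul_cancel a), one_mul]
    rw [← mul_inv_cancel_left a g]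
    exact hmul _ _ _ _ _ (ih _ (fun y hy => hne y (List.mem_cons_of_mem _ hy)) hb)

/-- Reduction modulo `m`. -/
def reduction (n m : ℕ) : SpecialLinearGroup (Fin n) ℤ →* SpecialLinearGroup (Fin n) (ZMod m) :=
  SpecialLinearGroup.map (Int.castRingHom (ZMod m))

theorem mem_ker_iff {m : ℕ} {g : SpecialLinearGroup (Fin n) ℤ} :
    g ∈ (reduction n m).ker ↔ ∀ i j, (m : ℤ) ∣ g.1 i j - (1 : Matrix (Fin n) (Fin n) ℤ) i j := by
  simp only [MonoidHom.mem_ker, ← ZMod.intCast_zmod_eq_zero_iff_dvd, Int.cast_sub, sub_eq_zero]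
  constructor
  · intro h i j
    have := congrFun (congrFun (congrArg Subtype.val h) i) j
    simpa [reduction, one_apply, apply_ite (fun x : ℤ => (x : ZMod m))] using this
  · intro h
    ext i j
    simpa [reduction, one_apply, apply_ite (fun x : ℤ => (x : ZMod m))] using h i j

/-- The normal subgroup generated by the elementary matrices with entry `m`. -/
def elem (n m : ℕ) : Subgroup (SpecialLinearGroup (Fin n) ℤ) :=
  Subgroup.normalClosure {g | ∃ i j, i ≠ j ∧ g.1 = transvection i j (m : ℤ)}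

instance elem_normal (n m : ℕ) : (elem n m).Normal := Subgroup.normalClosure_normal

theorem tv_mem_elem {m : ℕ} {i j : Fin n} (h : i ≠ j) {t : ℤ} (ht : (m : ℤ) ∣ t) :
    tv i j h t ∈ elem n m := by
  obtain ⟨k, rfl⟩ := ht
  rw [mul_comm, tv_mul_int]
  exact Subgroup.zpow_mem _ (Subgroup.subset_normalClosure (by exact ⟨i, j, h, rfl⟩)) k

theorem elem_le {m : ℕ} {N : Subgroup (SpecialLinearGroup (Fin n) ℤ)} [N.Normal]
    (h : ∀ i j (hij : i ≠ j), tv i j hij (m : ℤ) ∈ N) : elem n m ≤ N := by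
  refine Subgroup.normalClosure_le_normal ?_
  rintro g ⟨i, j, hij, hg⟩
  rw [show g = tv i j hij (m : ℤ) from Subtype.ext hg]
  exact h i j hij

theorem elem_le_ker (n m : ℕ) : elem n m ≤ (reduction n m).ker :=
  elem_le fun i j h => mem_ker_iff.2 fun a b => by
    simp only [tv_val, transvection, Matrix.add_apply, add_sub_cancel_left, single_apply]
    split_ifs <;> simp

/-- The classes modulo the elementary subgroup. -/
abbrev cl (n m : ℕ) : SpecialLinearGroup (Fin n) ℤ →* SpecialLinearGroup (Fin n) ℤ ⧸ elem n m :=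
  QuotientGroup.mk' (elem n m)

theorem cl_eq_one {m : ℕ} {g : SpecialLinearGroup (Fin n) ℤ} : cl n m g = 1 ↔ g ∈ elem n m :=
  QuotientGroup.eq_one_iff g

theorem cl_tv {m : ℕ} {i j : Fin n} (h : i ≠ j) {s t : ℤ} (hst : (m : ℤ) ∣ s - t) :
    cl n m (tv i j h s) = cl n m (tv i j h t) := by
  rw [show s = s - t + t by ring, tv_add, map_mul, cl_eq_one.2 (tv_mem_elem h hst), one_mul]

theorem cl_tv_eq_one {m : ℕ} {i j : Fin n} (h : i ≠ j) {t : ℤ} (ht : (m : ℤ) ∣ t) :
    cl n m (tv i j h t) = 1 :=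
  cl_eq_one.2 (tv_mem_elem h ht)

/-- Transposition composed with inversion. -/
def dual (n : ℕ) : SpecialLinearGroup (Fin n) ℤ →* SpecialLinearGroup (Fin n) ℤ where
  toFun g := (⟨g.1ᵀ, by rw [det_transpose]; exact g.2⟩ : SpecialLinearGroup (Fin n) ℤ)⁻¹
  map_one' := by rw [inv_eq_one]; exact Subtype.ext (by simp)
  map_mul' g h := by
    rw [← _root_.mul_inv_rev]
    congr 1
    exact Subtype.ext (by simp [transpose_mul])

theorem dual_mem_elem {m : ℕ} {g : SpecialLinearGroup (Fin n) ℤ} (hg : g ∈ elem n m) :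
    dual n g ∈ elem n m := by
  refine (elem_le (N := (elem n m).comap (dual n)) (fun i j h => ?_)) hg
  refine (elem n m).inv_mem ?_
  have e : (tv i j h (m : ℤ)).1ᵀ = (tv j i h.symm (m : ℤ)).1 := by
    ext a b
    simp [tv, transvection, one_apply, single_apply, eq_comm, and_comm]
  convert tv_mem_elem h.symm (dvd_refl (m : ℤ)) using 1
  exact Subtype.ext e

end FA.CongruenceSL

end
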