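import Fermat.Agent.CongruenceSL.Trivial

/-!
# Congruence kernels are elementary

Conjugation and elementary factors of the level reduce a congruent matrix to a block, whose symbol
is trivial.
-/

set_option autoImplicit false

noncomputable section

namespace FA.CongruenceSL

open Matrix Finset FA.CarterKeller

variable {n : ℕ}

theorem colEl_det {s : Finset (Fin n)} {r : Fin n} (hr : r ∉ s) (c : Fin n → ℤ) :
    (colOp s r c).det = 1 := (short_colOp hr c).det

/-- A column operation as an element. -/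
def colEl (s : Finset (Fin n)) (r : Fin n) (hr : r ∉ s) (c : Fin n → ℤ) :
    SpecialLinearGroup (Fin n) ℤ := ⟨colOp s r c, colEl_det hr c⟩

theorem colEl_mem_elem {m : ℕ} {s : Finset (Fin n)} {r : Fin n} (hr : r ∉ s) {c : Fin n → ℤ}
    (hc : ∀ j ∈ s, (m : ℤ) ∣ c j) : colEl s r hr c ∈ elem n m := by
  induction s using Finset.induction_on with
  | empty =>
    rw [show colEl ∅ r hr c = 1 from Subtype.ext (by simp [colEl, colOp])]
    exact one_mem _
  | insert a s ha ih =>
    have hr' := hr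
    simp only [Finset.mem_insert, not_or] at hr'
    have e : colEl (insert a s) r hr c = tv a r (Ne.symm hr'.1) (c a) * colEl s r hr'.2 c := by
      apply Subtype.ext
      have h0 : single a r (c a) * ∑ j ∈ s, single j r (c j) = 0 := by
        rw [Finset.mul_sum]
        exact Finset.sum_eq_zero fun j hj =>
          single_mul_single_of_ne (c a) a r j (fun (e : r = j) => hr'.2 (e ▸ hj)) (c j)
      simp only [colEl, tv, SpecialLinearGroup.coe_mul, colOp, transvection, Finset.sum_insert ha,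
        add_mul, mul_add, one_mul, mul_one, h0]
      abel
    rw [e]
    exact mul_mem (tv_mem_elem _ (hc a (Finset.mem_insert_self a s)))
      (ih hr'.2 fun j hj => hc j (Finset.mem_insert_of_mem hj))

/-- The transpose of a column operation. -/
def rowEl (s : Finset (Fin n)) (r : Fin n) (hr : r ∉ s) (c : Fin n → ℤ) :
    SpecialLinearGroup (Fin n) ℤ := (dual n (colEl s r hr c))⁻¹

theorem rowEl_val (s : Finset (Fin n)) (r : Fin n) (hr : r ∉ s) (c : Fin n → ℤ) :
    (rowEl s r hr c).1 = (colOp s r c)ᵀ := by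
  show ((_ : SpecialLinearGroup (Fin n) ℤ)⁻¹⁻¹).1 = _
  rw [inv_inv]
  rfl

theorem colEl_inv (s : Finset (Fin n)) (r : Fin n) (hr : r ∉ s) (c : Fin n → ℤ) :
    (colEl s r hr c)⁻¹ = colEl s r hr (-c) := by
  refine (eq_inv_of_mul_eq_one_left (a := colEl s r hr (-c)) (b := colEl s r hr c)
    (Subtype.ext ?_)).symm
  show colOp s r (-c) * colOp s r c = 1
  have h0 : (∑ j ∈ s, single j r ((-c) j)) * ∑ j ∈ s, single j r (c j) = 0 := by
    rw [Finset.sum_mul]
    refine Finset.sum_eq_zero fun j _ => ?_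
    rw [Finset.mul_sum]
    exact Finset.sum_eq_zero fun l hl =>
      single_mul_single_of_ne _ j r l (fun (e : r = l) => hr (e ▸ hl)) (c l)
  simp only [colOp, add_mul, mul_add, one_mul, mul_one, h0]
  simp only [Pi.neg_apply, ← single_neg, Finset.sum_neg_distrib]
  abel

theorem supported_mul {s : Finset (Fin n)} {A B : Matrix (Fin n) (Fin n) ℤ} (hA : Supported s A)
    (hB : Supported s B) : Supported s (A * B) := by
  intro i j hij
  rw [Matrix.mul_apply]
  rcases hij with hi | hj
  · rw [Finset.sum_eq_single i (fun k _ hk => by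
      rw [hA i k (Or.inl hi), one_apply_ne hk.symm, zero_mul]) (by simp)]
    rw [hA i i (Or.inl hi), one_apply_eq, one_mul, hB i j (Or.inl hi)]
  · rw [Finset.sum_eq_single j (fun k _ hk => by
      rw [hB k j (Or.inr hj), one_apply_ne hk, mul_zero]) (by simp)]
    rw [hB j j (Or.inr hj), one_apply_eq, mul_one, hA i j (Or.inr hj)]

theorem supported_one (s : Finset (Fin n)) : Supported s (1 : Matrix (Fin n) (Fin n) ℤ) :=
  fun _ _ _ => rfl

theorem supported_colOp {s t : Finset (Fin n)} {r : Fin n} (hr : r ∈ s) (ht : t ⊆ s) (hrt : r ∉ t)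
    (c : Fin n → ℤ) : Supported s (colOp t r c) := by
  simpa using (supported_one s).mul_colOp hr ht hrt c

variable {m : ℕ}

/-- **One step of the reduction.** -/
theorem exists_step {s : Finset (Fin n)} (hs : 3 ≤ s.card) (hm : 0 < m)
    {g : SpecialLinearGroup (Fin n) ℤ} (hg : g ∈ (reduction n m).ker) (hsupp : Supported s g.1)
    {r : Fin n} (hr : r ∈ s) :
    ∃ g' ∈ (reduction n m).ker, Supported (s.erase r) g'.1 ∧
      (g' ∈ elem n m → g ∈ elem n m) := by
  classical
  have hm0 : (m : ℤ) ≠ 0 := by exact_mod_cast hm.ne'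
  set v := g.1 r
  have hv : ∀ j, j ≠ r → (m : ℤ) ∣ v j := fun j hj => by
    have := mem_ker_iff.1 hg r j
    rwa [one_apply_ne hj.symm, sub_zero] at this
  choose w hw using hv
  set w' : Fin n → ℤ := fun j => if h : j = r then 0 else w j h
  have hvw : ∀ j, j ≠ r → v j = m * w' j := fun j hj => by simp only [w', dif_neg hj]; exact hw j hj
  have hunit : ∀ d : ℤ, d ∣ v r → (∀ j ∈ s.erase r, d ∣ w' j) → IsUnit d := fun d hdr hd => by
    have e := congrFun (congrFun (mul_adjugate g.1) r) r
    rw [g.2, one_smul, one_apply_eq, Matrix.mul_apply] at e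
    refine isUnit_of_dvd_one (e ▸ Finset.dvd_sum fun j _ => Dvd.dvd.mul_right ?_ _)
    show d ∣ v j
    rcases eq_or_ne j r with rfl | hjr
    · exact hdr
    by_cases hj : j ∈ s
    · rw [hvw j hjr]
      exact (hd j (mem_erase.2 ⟨hjr, hj⟩)).mul_left _
    · rw [show v j = (1 : Matrix (Fin n) (Fin n) ℤ) r j from hsupp r j (Or.inr hj),
        one_apply_ne hjr.symm]
      exact dvd_zero d
  obtain ⟨i₀, hi₀⟩ : (s.erase r).Nonempty := card_pos.1 (by rw [card_erase_of_mem hr]; omega)
  obtain ⟨i₁, hi₁⟩ : ((s.erase r).erase i₀).Nonempty :=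
    card_pos.1 (by rw [card_erase_of_mem hi₀, card_erase_of_mem hr]; omega)
  obtain ⟨a, c, ha, hcop⟩ : ∃ a c, a ∈ s.erase r ∧ ∀ d : ℤ, d ∣ w' a + c * v r →
      (∀ j ∈ (s.erase r).erase a, d ∣ w' j) → IsUnit d := by
    by_cases hg : ((s.erase r).erase i₀).gcd w' = 0
    · refine ⟨i₁, 1, (mem_erase.1 hi₁).2, fun d hd hd' => ?_⟩
      have h0 := Finset.gcd_eq_zero_iff.1 hg
      rw [h0 i₁ hi₁, zero_add, one_mul] at hd
      refine hunit d hd fun j hj => ?_
      rcases eq_or_ne j i₀ with rfl | hj0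
      · exact hd' _ (mem_erase.2 ⟨fun e => notMem_erase _ _ (e ▸ hi₁), hi₀⟩)
      · rw [h0 j (mem_erase.2 ⟨hj0, hj⟩)]
        exact dvd_zero d
    · obtain ⟨c, hc⟩ := exists_coprime_shift _ w' (w' i₀) (v r) hg fun d h1 h2 h3 =>
        hunit d h2 fun j hj => by
          rcases eq_or_ne j i₀ with rfl | hj0
          · exact h1
          · exact h3.trans (Finset.gcd_dvd (mem_erase.2 ⟨hj0, hj⟩))
      exact ⟨i₀, c, hi₀, fun d hd hd' => hc.isUnit_of_dvd' hd (Finset.dvd_gcd hd')⟩
  have har : a ≠ r := ne_of_mem_erase ha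
  set h₁ := colEl {r} a (by simpa using har) fun _ => m * c with hh₁
  set g₁ := g * h₁
  have hh₁E : h₁ ∈ elem n m := colEl_mem_elem _ fun _ _ => dvd_mul_right _ _
  have hg₁ : g₁ ∈ (reduction n m).ker := mul_mem hg (elem_le_ker n m hh₁E)
  have hsupp₁ : Supported s g₁.1 :=
    hsupp.mul_colOp (mem_of_mem_erase ha) (singleton_subset_iff.2 hr) (by simpa using har) _
  set w₁ : Fin n → ℤ := fun j => if j = a then w' a + c * v r else w' j
  have hv₁ : ∀ j, j ≠ r → g₁.1 r j = m * w₁ j := fun j hj => by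
    show (g.1 * colOp {r} a fun _ => (m : ℤ) * c) r j = _
    rw [mul_colOp_apply, Finset.sum_singleton, show g.1 r j = m * w' j from hvw j hj]
    by_cases hja : j = a
    · subst hja
      simp only [w₁, if_true]
      show _ + v r * _ = _
      ring
    · simp only [w₁, if_neg hja, add_zero]
  have hv₁r : g₁.1 r r = v r := by
    show (g.1 * colOp {r} a fun _ => (m : ℤ) * c) r r = _
    rw [mul_colOp_apply, if_neg har.symm, add_zero]
  obtain ⟨u, hu⟩ : ∃ u : Fin n → ℤ, ∑ j ∈ s.erase r, w₁ j * u j = 1 := by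
    obtain ⟨u, hu⟩ : ∃ u : Fin n → ℤ, (s.erase r).gcd w₁ = ∑ j ∈ s.erase r, w₁ j * u j :=
      Finset.gcd_eq_sum_mul (s.erase r) w₁
    have hU : IsUnit ((s.erase r).gcd w₁) := hcop _
      (by simpa [w₁] using Finset.gcd_dvd (f := w₁) ha) fun j hj => by
        simpa [w₁, ne_of_mem_erase hj] using Finset.gcd_dvd (f := w₁) (mem_of_mem_erase hj)
    obtain ⟨k, hk⟩ := hU
    exact ⟨fun j => u j * (k⁻¹ : ℤˣ), by
      simp_rw [← mul_assoc, ← Finset.sum_mul, ← hu, ← hk, Units.mul_inv]⟩
  obtain ⟨s', hs'⟩ : (m : ℤ) ∣ v r - 1 := by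
    have := mem_ker_iff.1 hg r r
    rwa [one_apply_eq] at this
  set h₂ := colEl (s.erase r) r (notMem_erase r s) fun j => -(s' * u j)
  set g₂ := h₂⁻¹ * g₁ * h₂
  have hker : (reduction n m).ker.Normal := MonoidHom.normal_ker _
  have hg₂ : g₂ ∈ (reduction n m).ker := by
    simpa [g₂] using hker.conj_mem g₁ hg₁ h₂⁻¹
  have hsupp₂ : Supported s g₂.1 := by
    have hc := supported_colOp hr (erase_subset r s) (notMem_erase r s) (fun j => -(s' * u j))
    show Supported s ((h₂⁻¹).1 * g₁.1 * colOp (s.erase r) r _)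
    rw [show (h₂⁻¹).1 = colOp (s.erase r) r (-fun j => -(s' * u j)) from
      congrArg Subtype.val (colEl_inv _ _ _ _)]
    exact supported_mul (supported_mul
      (supported_colOp hr (erase_subset r s) (notMem_erase r s) _) hsupp₁) hc
  have h2r : g₂.1 r r = 1 := by
    show ((h₂⁻¹).1 * g₁.1 * colOp (s.erase r) r fun j => -(s' * u j)) r r = 1
    rw [show (h₂⁻¹).1 = colOp (s.erase r) r (-fun j => -(s' * u j)) from
      congrArg Subtype.val (colEl_inv _ _ _ _), mul_assoc]
    have hrow : ∀ X : Matrix (Fin n) (Fin n) ℤ,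
        (colOp (s.erase r) r (-fun j => -(s' * u j)) * X) r r = X r r := fun X => by
      rw [colOp, add_mul, one_mul, Matrix.add_apply, Finset.sum_mul, Matrix.sum_apply,
        Finset.sum_eq_zero fun j hj =>
          single_mul_apply_of_ne _ j r r r (ne_of_mem_erase hj).symm X, add_zero]
    rw [hrow, mul_colOp_apply, if_pos rfl, hv₁r, Finset.sum_congr rfl fun j hj => by
      rw [hv₁ j (ne_of_mem_erase hj),
        show (m : ℤ) * w₁ j * -(s' * u j) = -(m * s') * (w₁ j * u j) by ring],
      ← Finset.mul_sum, hu]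
    linear_combination hs'
  set hC := colEl (s.erase r) r (notMem_erase r s) fun i => -g₂.1 i r
  set hR := rowEl (s.erase r) r (notMem_erase r s) fun i => -g₂.1 r i
  have hCE : hC ∈ elem n m := colEl_mem_elem _ fun j hj => by
    have := mem_ker_iff.1 hg₂ j r
    rw [one_apply_ne (ne_of_mem_erase hj), sub_zero] at this
    exact this.neg_right
  have hRE : hR ∈ elem n m := by
    refine inv_mem (dual_mem_elem (colEl_mem_elem _ fun j hj => ?_))
    have := mem_ker_iff.1 hg₂ r j
    rw [one_apply_ne (ne_of_mem_erase hj).symm, sub_zero] at this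
    exact this.neg_right
  refine ⟨hC * g₂ * hR, mul_mem (mul_mem (elem_le_ker n m hCE) hg₂) (elem_le_ker n m hRE), ?_,
    fun h => ?_⟩
  · rw [SpecialLinearGroup.coe_mul, SpecialLinearGroup.coe_mul, rowEl_val]
    exact supported_clear hsupp₂ h2r
  · have h2 : g₂ ∈ elem n m := by
      rw [show g₂ = hC⁻¹ * (hC * g₂ * hR) * hR⁻¹ by group]
      exact mul_mem (mul_mem (inv_mem hCE) h) (inv_mem hRE)
    have h1 : g₁ ∈ elem n m := by
      rw [show g₁ = h₂ * g₂ * h₂⁻¹ by simp only [g₂]; group]
      exact (elem_normal n m).conj_mem g₂ h2 h₂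
    rw [show g = g₁ * h₁⁻¹ by simp only [g₁]; group]
    exact mul_mem h1 (inv_mem hh₁E)

/-- The block inclusion. -/
def incl (k : ℕ) : SpecialLinearGroup (Fin 3) ℤ →* SpecialLinearGroup (Fin (3 + k)) ℤ where
  toFun g := ⟨reindexAlgEquiv ℤ ℤ finSumFinEquiv (fromBlocks g.1 0 0 1),
    by rw [det_reindexAlgEquiv, det_fromBlocks_zero₂₁, det_one, mul_one]; exact g.2⟩
  map_one' := Subtype.ext (by simp [fromBlocks_one])
  map_mul' g h := Subtype.ext (by
    show _ = reindexAlgEquiv ℤ ℤ _ _ * reindexAlgEquiv ℤ ℤ _ _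
    rw [← map_mul, fromBlocks_multiply]
    simp)

theorem incl_mem_elem {k : ℕ} {g : SpecialLinearGroup (Fin 3) ℤ} (hg : g ∈ elem 3 m) :
    incl k g ∈ elem (3 + k) m := by
  refine (elem_le (N := (elem (3 + k) m).comap (incl k)) fun i j h => ?_) hg
  show incl k (tv i j h (m : ℤ)) ∈ elem (3 + k) m
  refine Subgroup.subset_normalClosure ⟨finSumFinEquiv (.inl i), finSumFinEquiv (.inl j),
    fun e => h (Sum.inl_injective (finSumFinEquiv.injective e)), ?_⟩
  show reindexAlgEquiv ℤ ℤ finSumFinEquiv (fromBlocks (transvection i j (m : ℤ)) 0 0 1) = _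
  have := ((TransvectionStruct.sumInl (Fin k) (⟨i, j, h, (m : ℤ)⟩ :
    TransvectionStruct (Fin 3) ℤ)).toMatrix_reindexEquiv finSumFinEquiv)
  rw [TransvectionStruct.toMatrix_sumInl] at this
  exact this.symm

theorem mem_elem_of_supported_two {k : ℕ} (hm : 0 < m)
    {g : SpecialLinearGroup (Fin (3 + k)) ℤ} (hg : g ∈ (reduction (3 + k) m).ker)
    (hM : Supported ((Finset.univ : Finset (Fin (3 + k))).filter fun i => i.val < 2) g.1) :
    g ∈ elem (3 + k) m := by
  let e := finSumFinEquiv (m := 3) (n := k)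
  set X := (reindexAlgEquiv ℤ ℤ e).symm g.1
  have hX : ∀ i j, X i j = g.1 (e i) (e j) := fun i j => by simp [X]
  have h11 : X.toBlocks₁₁ = emb (X (.inl 0) (.inl 0)) (X (.inl 0) (.inl 1)) (X (.inl 1) (.inl 0))
      (X (.inl 1) (.inl 1)) := by
    ext i j
    fin_cases i <;> fin_cases j <;> simp [emb, toBlocks₁₁, hX] <;>
      (rw [hM _ _ (by simp [e, finSumFinEquiv])]; simp [one_apply, e, finSumFinEquiv, Fin.ext_iff])
  have hblock : X = fromBlocks X.toBlocks₁₁ 0 0 (1 : Matrix (Fin k) (Fin k) ℤ) := by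
    ext (i | i) (j | j)
    · rfl
    all_goals
      rw [hX, hM _ _ (by simp [e, finSumFinEquiv]; try omega)]
      simp [one_apply, e, finSumFinEquiv, Fin.ext_iff]
      try omega
  have hd : X.toBlocks₁₁.det = 1 := by
    have : X.det = 1 := by simp [X, g.2]
    rw [hblock, det_fromBlocks_zero₂₁, det_one, mul_one] at this
    exact this
  rw [h11] at hd hblock
  simp [emb, det_fin_three] at hd
  have hc : ∀ i j : Fin 3, (m : ℤ) ∣ X (.inl i) (.inl j) - (1 : Matrix (Fin 3) (Fin 3) ℤ) i j :=
    fun i j => by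
      have := mem_ker_iff.1 hg (e (.inl i)) (e (.inl j))
      rw [← hX] at this
      simpa [one_apply, e.injective.eq_iff] using this
  have h01 := hc 0 1
  have h10 := hc 1 0
  have h00 := hc 0 0
  rw [one_apply_ne (by decide), sub_zero] at h01 h10
  rw [one_apply_eq] at h00
  have hrow : Row m (X (.inl 0) (.inl 0)) (X (.inl 0) (.inl 1)) (X (.inl 1) (.inl 0))
      (X (.inl 1) (.inl 1)) := ⟨by linear_combination hd, h00, h01, h10⟩
  have h1 := sym_eq_one hm h00 h01 (isCoprime_of_completion hrow.det)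
  rw [sym_eq hrow] at h1
  have e' : g = incl k (blk _ _ _ _ hrow.det) := by
    apply Subtype.ext
    show g.1 = reindexAlgEquiv ℤ ℤ e (fromBlocks (emb _ _ _ _) 0 0 1)
    rw [← hblock]
    simp [X]
  rw [e']
  exact incl_mem_elem (cl_eq_one.1 h1)

/-- **Mennicke.** -/
theorem ker_le_elem (hn : 3 ≤ n) (hm : 0 < m) : (reduction n m).ker ≤ elem n m := by
  obtain ⟨k, rfl⟩ := Nat.exists_eq_add_of_le hn
  suffices h : ∀ t : ℕ, t ≤ k + 1 → ∀ g ∈ (reduction (3 + k) m).ker,
      Supported ((Finset.univ : Finset (Fin (3 + k))).filter fun i => i.val < 2 + t) g.1 →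
        g ∈ elem (3 + k) m from
    fun g hg => h (k + 1) le_rfl g hg fun i j hij => absurd hij (by simp; omega)
  intro t
  induction t with
  | zero => exact fun _ g hg hs => mem_elem_of_supported_two hm hg (by simpa using hs)
  | succ t ih =>
    intro ht g hg hs
    let r : Fin (3 + k) := ⟨2 + t, by omega⟩
    have hcard : 3 ≤ ((Finset.univ : Finset (Fin (3 + k))).filter
        fun i => i.val < 2 + (t + 1)).card := by
      have : ({⟨0, by omega⟩, ⟨1, by omega⟩, ⟨2, by omega⟩} : Finset (Fin (3 + k))) ⊆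
          (Finset.univ : Finset (Fin (3 + k))).filter fun i => i.val < 2 + (t + 1) := by
        intro i hi
        simp only [Finset.mem_insert, Finset.mem_singleton] at hi
        rcases hi with rfl | rfl | rfl <;> simp <;> omega
      exact le_trans (by simp) (card_le_card this)
    obtain ⟨g', hg', hs', himp⟩ := exists_step hcard hm hg hs (r := r) (by simp [r])
    have he : ((Finset.univ : Finset (Fin (3 + k))).filter fun i => i.val < 2 + (t + 1)).erase r =
        (Finset.univ : Finset (Fin (3 + k))).filter fun i => i.val < 2 + t := by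
      ext i
      simp [r, Fin.ext_iff]
      omega
    rw [he] at hs'
    exact himp (ih (by omega) g' hg' hs')

end FA.CongruenceSL

end
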