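import Fermat.Agent.CongruenceSL.Main
import Mathlib.GroupTheory.Index
import Mathlib.Data.Set.Finite.List

/-!
# Normal subgroups of `SL n ℤ`

A normal subgroup with a non-central element contains an elementary matrix, hence a level; bounded
generation makes the level subgroups of finite index.
-/

set_option autoImplicit false

noncomputable section

namespace FA.CongruenceSL

open Matrix

variable {n : ℕ} {N : Subgroup (SpecialLinearGroup (Fin n) ℤ)} [N.Normal]

omit [N.Normal] in
/-- The level subgroups have finite index. -/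
theorem finiteIndex_elem (hn : 3 ≤ n) {m : ℕ} (hm : 0 < m) : (elem n m).FiniteIndex := by
  obtain ⟨K, hK⟩ := FA.Summary.carter_keller hn
  have : NeZero m := ⟨hm.ne'⟩
  let T := {p : Fin n × Fin n // p.1 ≠ p.2} × ZMod m
  have : Finite {L : List T // L.length ≤ K} := List.finite_length_le T K
  let f : {L : List T // L.length ≤ K} → SpecialLinearGroup (Fin n) ℤ ⧸ elem n m := fun L =>
    (L.1.map fun x => cl n m (tv x.1.1.1 x.1.1.2 x.1.2 (x.2.val : ℤ))).prod
  suffices Function.Surjective f by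
    have := Finite.of_surjective f this
    exact Subgroup.finiteIndex_of_finite_quotient
  intro q
  obtain ⟨g, rfl⟩ := QuotientGroup.mk'_surjective (elem n m) q
  obtain ⟨L, hL, hne, hg⟩ := hK g.1 g.2
  have key : g = (L.pmap (fun x hx => tv x.1 x.2.1 hx x.2.2) hne).prod := by
    apply Subtype.ext
    rw [hg]
    clear hg hL
    induction L with
    | nil => rfl
    | cons x L ih =>
      rw [List.map_cons, List.prod_cons, List.pmap, List.prod_cons, SpecialLinearGroup.coe_mul,
        ← ih fun y hy => hne y (List.mem_cons_of_mem _ hy)]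
      rfl
  refine ⟨⟨L.pmap (fun x hx => (⟨(x.1, x.2.1), hx⟩, (x.2.2 : ZMod m))) hne,
    by simpa using hL⟩, ?_⟩
  show List.prod (List.map _ _) = _
  rw [key, map_list_prod, List.map_pmap, List.map_pmap]
  congr 1
  refine List.pmap_congr_left _ fun x _ h1 h2 => ?_
  exact cl_tv h2 ((ZMod.intCast_eq_intCast_iff_dvd_sub _ _ m).1 (by simp))

theorem conj_sub_mem {h : SpecialLinearGroup (Fin n) ℤ} (hh : h ∈ N)
    (g : SpecialLinearGroup (Fin n) ℤ) : h * g * h⁻¹ * g⁻¹ ∈ N := by
  rw [mul_assoc h g, mul_assoc h]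
  exact mul_mem hh (by simpa [mul_assoc] using ‹N.Normal›.conj_mem _ (inv_mem hh) g)

theorem sub_conj_mem {h : SpecialLinearGroup (Fin n) ℤ} (hh : h ∈ N)
    (g : SpecialLinearGroup (Fin n) ℤ) : g * h * g⁻¹ * h⁻¹ ∈ N :=
  mul_mem (‹N.Normal›.conj_mem _ hh g) (inv_mem hh)

/-- One elementary matrix in `N` gives them all. -/
theorem tv_mem_of_tv_mem (hn : 3 ≤ n) {i q : Fin n} (hiq : i ≠ q) {t : ℤ}
    (h : tv i q hiq t ∈ N) (a b : Fin n) (hab : a ≠ b) : tv a b hab t ∈ N := by
  have other : ∀ x y : Fin n, ∃ z, z ≠ x ∧ z ≠ y := fun x y => by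
    obtain ⟨z, hz⟩ : ((Finset.univ : Finset (Fin n)) \ {x, y}).Nonempty := Finset.card_pos.1 (by
      rw [Finset.card_sdiff_of_subset (Finset.subset_univ _), Finset.card_univ, Fintype.card_fin]
      have := Finset.card_le_two (a := x) (b := y)
      omega)
    simp only [Finset.mem_sdiff, Finset.mem_insert, Finset.mem_singleton, not_or] at hz
    exact ⟨z, hz.2.1, hz.2.2⟩
  have right : ∀ {x y z : Fin n} (hxy : x ≠ y) (hxz : x ≠ z), y ≠ z → tv x y hxy t ∈ N →
      tv x z hxz t ∈ N := fun {x y z} hxy hxz hyz h => by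
    have := tv_commutator hxy hyz hxz t 1
    rw [mul_one] at this
    rw [← this]
    exact conj_sub_mem h _
  have left : ∀ {x y z : Fin n} (hxy : x ≠ y) (hzy : z ≠ y), z ≠ x → tv x y hxy t ∈ N →
      tv z y hzy t ∈ N := fun {x y z} hxy hzy hzx h => by
    have := tv_commutator hzx hxy hzy 1 t
    rw [one_mul] at this
    rw [← this]
    exact sub_conj_mem h _
  have move : ∀ {x y : Fin n} (hxy : x ≠ y), tv x y hxy t ∈ N → ∀ w (hxw : x ≠ w),
      tv x w hxw t ∈ N := fun {x y} hxy h w hxw => by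
    rcases eq_or_ne y w with rfl | hyw
    · exact h
    · exact right hxy hxw hyw h
  obtain ⟨z, hzi, hza⟩ := other i a
  have h1 := move hiq h z hzi.symm
  have h2 : tv a z hza.symm t ∈ N := by
    rcases eq_or_ne a i with rfl | hai
    · exact h1
    · exact left hzi.symm hza.symm hai h1
  exact move hza.symm h2 b hab

/-- An element commuting with all elementary matrices is central. -/
theorem mem_center_of_commute (hn : 3 ≤ n) {g : SpecialLinearGroup (Fin n) ℤ}
    (h : ∀ i j (hij : i ≠ j), Commute (tv i j hij 1) g) :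
    g ∈ Subgroup.center (SpecialLinearGroup (Fin n) ℤ) := by
  refine Subgroup.mem_center_iff.2 fun x => ?_
  refine induction_tv (p := fun x => Commute x g) hn (Commute.one_left g)
    (fun i j hij t y hy => Commute.mul_left ?_ hy) x
  rw [show t = t * 1 by ring, tv_mul_int]
  exact (h i j hij).zpow_left t

/-- The central elements are scalar. -/
theorem exists_scalar_of_mem_center {g : SpecialLinearGroup (Fin n) ℤ}
    (h : g ∈ Subgroup.center (SpecialLinearGroup (Fin n) ℤ)) :
    ∃ c : ℤ, c ^ n = 1 ∧ g.1 = Matrix.scalar (Fin n) c := by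
  obtain ⟨c, hc⟩ := mem_range_scalar_of_commute_transvectionStruct (M := g.1) fun t =>
    congrArg Subtype.val (Subgroup.mem_center_iff.1 h (tv t.i t.j t.hij t.c))
  refine ⟨c, ?_, hc.symm⟩
  have := g.2
  rw [← hc, Matrix.scalar_apply, det_diagonal] at this
  simpa using this

theorem tv_val_vec {i j : Fin n} (h : i ≠ j) (t : ℤ) :
    (tv i j h t).1 = 1 + t • vecMulVec (Pi.single i 1) (Pi.single j 1) := by
  ext a b
  rw [tv_val, transvection, Matrix.add_apply, Matrix.add_apply, Matrix.smul_apply, single_apply,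
    vecMulVec_apply, smul_eq_mul]
  simp [Pi.single_apply, ite_and, eq_comm]
  split_ifs <;> rfl

/-- A matrix differing from `1` in one row gives an elementary one. -/
theorem exists_tv_of_row (hn : 3 ≤ n) {h : SpecialLinearGroup (Fin n) ℤ} (hh : h ∈ N) {i : Fin n}
    {z : Fin n → ℤ} (hz : z i = 0) (hz0 : z ≠ 0)
    (hform : h.1 = 1 + vecMulVec (Pi.single i 1) z) :
    ∃ q, ∃ hiq : i ≠ q, ∃ t, t ≠ 0 ∧ tv i q hiq t ∈ N := by
  obtain ⟨p, hp⟩ : ∃ p, z p ≠ 0 := by
    by_contra hc
    push Not at hc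
    exact hz0 (funext hc)
  have hip : i ≠ p := fun e => hp (e ▸ hz)
  obtain ⟨q, hqi, hqp⟩ : ∃ q, q ≠ i ∧ q ≠ p := by
    obtain ⟨q, hq⟩ : ((Finset.univ : Finset (Fin n)) \ {i, p}).Nonempty := Finset.card_pos.1 (by
      rw [Finset.card_sdiff_of_subset (Finset.subset_univ _), Finset.card_pair hip,
        Finset.card_univ, Fintype.card_fin]
      omega)
    simp only [Finset.mem_sdiff, Finset.mem_insert, Finset.mem_singleton, not_or] at hq
    exact ⟨q, hq.2.1, hq.2.2⟩
  have e : h * tv p q hqp.symm 1 = tv i q hqi.symm (z p) * tv p q hqp.symm 1 * h := by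
    apply Subtype.ext
    rw [SpecialLinearGroup.coe_mul, SpecialLinearGroup.coe_mul, SpecialLinearGroup.coe_mul, hform,
      tv_val_vec, tv_val_vec]
    simp only [mul_add, add_mul, one_mul, mul_one, one_smul, Matrix.smul_mul, Matrix.mul_smul,
      vecMulVec_mul_vecMulVec, dotProduct_single_one, single_one_dotProduct, Pi.single_eq_of_ne,
      hqp.symm, hqp, hqi.symm, hqi, hip, hip.symm, ne_eq, not_false_eq_true, zero_smul,
      vecMulVec_zero, smul_zero, add_zero, vecMulVec_smul]
    abel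
  refine ⟨q, hqi.symm, z p, hp, ?_⟩
  rw [show tv i q hqi.symm (z p) =
    h * tv p q hqp.symm 1 * h⁻¹ * (tv p q hqp.symm 1)⁻¹ by rw [e]; group]
  exact conj_sub_mem hh _

/-- **A non-central normal subgroup contains an elementary matrix.** -/
theorem exists_tv_mem (hn : 3 ≤ n) (hN : ¬ N ≤ Subgroup.center (SpecialLinearGroup (Fin n) ℤ)) :
    ∃ i q, ∃ hiq : (i : Fin n) ≠ q, ∃ t, t ≠ 0 ∧ tv i q hiq t ∈ N := by
  obtain ⟨g, hgN, hgc⟩ := SetLike.not_le_iff_exists.1 hN
  by_cases hdiag : ∀ a b, a ≠ b → g.1 a b = 0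
  · set d : Fin n → ℤ := fun a => g.1 a a
    have hg : g.1 = diagonal d := by
      ext a b
      rcases eq_or_ne a b with rfl | hab
      · simp [d]
      · simp [hdiag a b hab, hab]
    have hd : ∀ a, d a * d a = 1 := fun a => by
      have h1 : ∏ a, d a = 1 := by
        rw [← det_diagonal, ← hg]
        exact g.2
      exact Int.isUnit_mul_self
        (isUnit_of_dvd_one (h1 ▸ Finset.dvd_prod_of_mem d (Finset.mem_univ a)))
    obtain ⟨i, j, hij, hne⟩ : ∃ i j, ∃ _ : (i : Fin n) ≠ j, d i * d j - 1 ≠ 0 := by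
      by_contra hc
      push Not at hc
      refine hgc (mem_center_of_commute hn fun i j hij => Subtype.ext ?_)
      have e : d i = d j := by linear_combination (-(d i)) * hd j + d j * hc i j hij
      rw [SpecialLinearGroup.coe_mul, SpecialLinearGroup.coe_mul, hg, tv_val_vec]
      ext a b
      simp only [mul_diagonal, diagonal_mul, Matrix.add_apply, one_apply, one_smul, vecMulVec_apply,
        Pi.single_apply]
      split_ifs <;> simp_all
    have e : g * tv i j hij 1 = tv i j hij (d i * d j - 1) * tv i j hij 1 * g := by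
      rw [← tv_add, sub_add_cancel]
      apply Subtype.ext
      rw [SpecialLinearGroup.coe_mul, SpecialLinearGroup.coe_mul, hg, tv_val_vec, tv_val_vec]
      ext a b
      simp only [mul_diagonal, diagonal_mul, Matrix.add_apply, one_apply, one_smul,
        Matrix.smul_apply, vecMulVec_apply, Pi.single_apply, smul_eq_mul]
      split_ifs <;> simp_all
      linear_combination (-(d i)) * hd j
    refine ⟨i, j, hij, _, hne, ?_⟩
    rw [show tv i j hij (d i * d j - 1) = g * tv i j hij 1 * g⁻¹ * (tv i j hij 1)⁻¹ by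
      rw [e]; group]
    exact conj_sub_mem hgN _
  push Not at hdiag
  obtain ⟨p, i, hpi, hgp⟩ := hdiag
  set u : Fin n → ℤ := fun a => g.1 a i with hu
  obtain ⟨j, hji, hwi⟩ : ∃ j, j ≠ i ∧ (g⁻¹).1 j i ≠ 0 := by
    by_contra hc
    push Not at hc
    have h1 : ∀ a, ∑ b, g.1 a b * (g⁻¹).1 b i = (1 : Matrix (Fin n) (Fin n) ℤ) a i := fun a => by
      rw [← Matrix.mul_apply, ← SpecialLinearGroup.coe_mul, mul_inv_cancel,
        SpecialLinearGroup.coe_one]
    have h2 := h1 p
    have h3 := h1 i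
    rw [Finset.sum_eq_single i (fun b _ hb => by rw [hc b hb, mul_zero]) (by simp),
      one_apply_ne hpi] at h2
    rw [Finset.sum_eq_single i (fun b _ hb => by rw [hc b hb, mul_zero]) (by simp),
      one_apply_eq, (mul_eq_zero.1 h2).resolve_left hgp, mul_zero] at h3
    exact zero_ne_one h3
  set w : Fin n → ℤ := fun b => (g⁻¹).1 j b with hw
  obtain ⟨T, hTdef⟩ : ∃ T, T = g * tv i j hji.symm 1 * g⁻¹ := ⟨_, rfl⟩
  have hT : T.1 = 1 + vecMulVec u w := by
    simp only [hTdef, SpecialLinearGroup.coe_mul, tv_val_vec, one_smul, mul_add, add_mul, mul_one]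
    rw [← SpecialLinearGroup.coe_mul, mul_inv_cancel, SpecialLinearGroup.coe_one, mul_vecMulVec,
      vecMulVec_mul]
    congr 2 <;> funext a <;> simp [u, w]
  obtain ⟨q, hqi, hqp⟩ : ∃ q, q ≠ i ∧ q ≠ p := by
    obtain ⟨q, hq⟩ : ((Finset.univ : Finset (Fin n)) \ {i, p}).Nonempty := Finset.card_pos.1 (by
      rw [Finset.card_sdiff_of_subset (Finset.subset_univ _), Finset.card_pair hpi.symm,
        Finset.card_univ, Fintype.card_fin]
      omega)
    simp only [Finset.mem_sdiff, Finset.mem_insert, Finset.mem_singleton, not_or] at hq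
    exact ⟨q, hq.2.1, hq.2.2⟩
  set y : Fin n → ℤ := u q • Pi.single p 1 - u p • Pi.single q 1 with hy
  have hyu : y ⬝ᵥ u = 0 := by
    simp only [y, sub_dotProduct, smul_dotProduct, single_one_dotProduct, smul_eq_mul]
    ring
  have hyi : y i = 0 := by simp [y, hpi.symm, hqi.symm]
  have hyq : y q ≠ 0 := by simp [y, hqp, hu, hgp]
  obtain ⟨S, hSdef⟩ : ∃ S, S = tv i p hpi.symm (u q) * tv i q hqi.symm (-u p) := ⟨_, rfl⟩
  have hS : S.1 = 1 + vecMulVec (Pi.single i 1) y := by
    simp only [hSdef, SpecialLinearGroup.coe_mul, tv_val_vec, mul_add, add_mul, one_mul, mul_one,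
      Matrix.smul_mul, Matrix.mul_smul, vecMulVec_mul_vecMulVec, single_one_dotProduct,
      Pi.single_eq_of_ne hpi, Pi.single_eq_of_ne hpi.symm, zero_smul, vecMulVec_zero, smul_zero,
      add_zero, neg_smul, Matrix.mul_neg, neg_zero, y,
      vecMulVec_sub, vecMulVec_smul]
    abel
  have hSe : tv i j hji.symm 1 * S = S * tv i j hji.symm 1 := by
    apply Subtype.ext
    simp only [SpecialLinearGroup.coe_mul, hS, tv_val_vec, one_smul, mul_add, add_mul, one_mul,
      mul_one, vecMulVec_mul_vecMulVec, single_one_dotProduct, dotProduct_single_one,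
      Pi.single_eq_of_ne hji.symm, hyi, zero_smul, vecMulVec_zero, add_zero]
    abel
  obtain ⟨v, hvdef⟩ : ∃ v, v = T * S * T⁻¹ * S⁻¹ := ⟨_, rfl⟩
  have hvN : v ∈ N := by
    have : v = g * tv i j hji.symm 1 * g⁻¹ * (tv i j hji.symm 1)⁻¹ *
        (tv i j hji.symm 1 * S * (tv i j hji.symm 1)⁻¹) *
        (g * tv i j hji.symm 1 * g⁻¹ * (tv i j hji.symm 1)⁻¹)⁻¹ * S⁻¹ := by
      rw [hvdef, hTdef]; group
    rw [this, hSe, mul_inv_cancel_right]
    exact conj_sub_mem (conj_sub_mem hgN _) S
  have hv : v.1 = 1 + w i • vecMulVec u y := by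
    have h1 : (T * S).1 = (1 + w i • vecMulVec u y) * (S * T).1 := by
      rw [SpecialLinearGroup.coe_mul, SpecialLinearGroup.coe_mul, hT, hS]
      simp only [mul_add, add_mul, one_mul, mul_one, Matrix.smul_mul, vecMulVec_mul_vecMulVec, hyu,
        dotProduct_single_one, hyi, zero_smul, vecMulVec_zero, smul_zero, add_zero,
        vecMulVec_smul]
      abel
    have h2 : v = T * S * (S * T)⁻¹ := by rw [hvdef]; group
    rw [h2, SpecialLinearGroup.coe_mul, h1, mul_assoc, ← SpecialLinearGroup.coe_mul,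
      mul_inv_cancel, SpecialLinearGroup.coe_one, mul_one]
  have hh := conj_sub_mem hvN (tv i p hpi.symm 1)
  refine ⟨i, exists_tv_of_row hn hh (i := i) (z := -(w i * u p) • y) (by simp [hyi]) ?_ ?_⟩
  · intro h0
    have := congrFun h0 q
    simp only [Pi.smul_apply, smul_eq_mul, Pi.zero_apply, mul_eq_zero, neg_eq_zero] at this
    rcases this with (h | h) | h
    · exact hwi h
    · exact hgp h
    · exact hyq h
  · obtain ⟨F, hFdef⟩ : ∃ F, F = tv i p hpi.symm 1 := ⟨_, rfl⟩
    rw [← hFdef]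
    have h1 : (1 + vecMulVec (Pi.single i 1) (-(w i * u p) • y)) * (F * v).1 = (v * F).1 := by
      rw [SpecialLinearGroup.coe_mul, SpecialLinearGroup.coe_mul, hv, hFdef, tv_val_vec]
      simp only [one_smul, mul_add, add_mul, one_mul, mul_one, Matrix.smul_mul, Matrix.mul_smul,
        vecMulVec_mul_vecMulVec, smul_dotProduct, dotProduct_single_one, single_one_dotProduct,
        hyu, hyi, zero_smul, vecMulVec_zero, smul_zero, add_zero, vecMulVec_smul, smul_smul,
        Pi.smul_apply, smul_eq_mul, mul_zero, neg_zero]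
      ext a b
      simp only [Matrix.add_apply, Matrix.smul_apply, vecMulVec_apply, smul_eq_mul, Pi.smul_apply,
        Matrix.neg_apply]
      ring
    have h2 : v * F * v⁻¹ * F⁻¹ = v * F * (F * v)⁻¹ := by group
    rw [h2, SpecialLinearGroup.coe_mul, ← h1, mul_assoc, ← SpecialLinearGroup.coe_mul,
      mul_inv_cancel, SpecialLinearGroup.coe_one, mul_one]

/-- **A non-central normal subgroup contains a level subgroup.** -/
theorem exists_elem_le (hn : 3 ≤ n) (hN : ¬ N ≤ Subgroup.center (SpecialLinearGroup (Fin n) ℤ)) :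
    ∃ m : ℕ, 0 < m ∧ elem n m ≤ N := by
  obtain ⟨i, q, hiq, t, ht, htN⟩ := exists_tv_mem hn hN
  refine ⟨t.natAbs, Int.natAbs_pos.2 ht, elem_le fun a b hab => ?_⟩
  have h := tv_mem_of_tv_mem hn hiq htN a b hab
  rcases Int.natAbs_eq t with e | e
  · rwa [← e]
  · rw [show ((t.natAbs : ℤ)) = -t by omega, tv_neg]
    exact inv_mem h

end FA.CongruenceSL

end
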