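import Fermat.Agent.CongruenceSL.Basic

/-!
# The symbol of Mennicke

In `SL 3 ℤ` modulo the normal elementary subgroup of level `m` the congruent blocks are central, and
the class of a block depends only on its first row, multiplicatively in the first entry.
-/

set_option autoImplicit false

noncomputable section

namespace FA.CongruenceSL

open Matrix FA.CarterKeller

/-- A block as an element of `SL 3 ℤ`. -/
def blk (a b c d : ℤ) (e : a * d - b * c = 1) : SpecialLinearGroup (Fin 3) ℤ :=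
  ⟨emb a b c d, by simp [emb, det_fin_three]; linear_combination e⟩

theorem blk_eq {a b c d a' b' c' d' : ℤ} {e : a * d - b * c = 1} {e' : a' * d' - b' * c' = 1}
    (ha : a = a') (hb : b = b') (hc : c = c') (hd : d = d') :
    blk a b c d e = blk a' b' c' d' e' := by
  subst ha hb hc hd
  rfl

/-- A congruent row and completion. -/
structure Row (m : ℕ) (a b c d : ℤ) : Prop where
  /-- determinant one -/
  det : a * d - b * c = 1
  /-- congruent to one -/
  fst : (m : ℤ) ∣ a - 1
  /-- congruent to zero -/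
  snd : (m : ℤ) ∣ b
  /-- congruent to zero -/
  low : (m : ℤ) ∣ c

theorem Row.last {m : ℕ} {a b c d : ℤ} (h : Row m a b c d) : (m : ℤ) ∣ d - 1 := by
  have e : d - 1 = -((a - 1) * d) + b * c := by linear_combination h.det
  rw [e]
  exact ((h.fst.mul_right d).neg_right).add (h.snd.mul_right c)

theorem exists_row {m : ℕ} {a b : ℤ} (ha : (m : ℤ) ∣ a - 1) (hb : (m : ℤ) ∣ b)
    (h : IsCoprime a b) : ∃ c d, Row m a b c d := by
  obtain ⟨c, d, e⟩ := exists_completion h
  exact ⟨c - c * a, d - c * b, by linear_combination e, ha, hb,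
    by rw [show c - c * a = -(c * (a - 1)) by ring]; exact (ha.mul_left c).neg_right⟩

variable {m : ℕ}

/-- The class of a block. -/
abbrev bcl (m : ℕ) (a b c d : ℤ) (e : a * d - b * c = 1) :
    SpecialLinearGroup (Fin 3) ℤ ⧸ elem 3 m :=
  cl 3 m (blk a b c d e)

theorem cl_tv_one {i j : Fin 3} (h : i ≠ j) {s x : ℤ} (hx : (m : ℤ) ∣ x - 1) :
    cl 3 m (tv i j h (s * x)) = cl 3 m (tv i j h s) :=
  cl_tv h (by rw [show s * x - s = s * (x - 1) by ring]; exact hx.mul_left s)

/-- **Congruent blocks are central.** -/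
theorem commute_blk {a b c d : ℤ} (h : Row m a b c d) (g : SpecialLinearGroup (Fin 3) ℤ) :
    Commute (bcl m a b c d h.det) (cl 3 m g) := by
  have n02 : (0 : Fin 3) ≠ 2 := by decide
  have n12 : (1 : Fin 3) ≠ 2 := by decide
  have n20 : (2 : Fin 3) ≠ 0 := by decide
  have n21 : (2 : Fin 3) ≠ 1 := by decide
  have z : ∀ {i j : Fin 3} (hij : i ≠ j) (s : ℤ) {x : ℤ}, (m : ℤ) ∣ x →
      cl 3 m (tv i j hij (s * x)) = 1 := fun hij s x hx => cl_tv_eq_one hij (hx.mul_left s)
  have e1 : ∀ s, blk a b c d h.det * tv 0 2 n02 s =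
      tv 0 2 n02 (s * a) * tv 1 2 n12 (s * c) * blk a b c d h.det := fun s => by
    apply Subtype.ext
    ext i j
    fin_cases i <;> fin_cases j <;>
      simp [blk, emb, tv, transvection, Matrix.mul_apply, Fin.sum_univ_three, single] <;> ring
  have e2 : ∀ s, blk a b c d h.det * tv 1 2 n12 s =
      tv 0 2 n02 (s * b) * tv 1 2 n12 (s * d) * blk a b c d h.det := fun s => by
    apply Subtype.ext
    ext i j
    fin_cases i <;> fin_cases j <;>
      simp [blk, emb, tv, transvection, Matrix.mul_apply, Fin.sum_univ_three, single] <;> ring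
  have e3 : ∀ s, tv 2 0 n20 s * blk a b c d h.det =
      blk a b c d h.det * (tv 2 0 n20 (s * a) * tv 2 1 n21 (s * b)) := fun s => by
    apply Subtype.ext
    ext i j
    fin_cases i <;> fin_cases j <;>
      simp [blk, emb, tv, transvection, Matrix.mul_apply, Fin.sum_univ_three, single] <;> ring
  have e4 : ∀ s, tv 2 1 n21 s * blk a b c d h.det =
      blk a b c d h.det * (tv 2 0 n20 (s * c) * tv 2 1 n21 (s * d)) := fun s => by
    apply Subtype.ext
    ext i j
    fin_cases i <;> fin_cases j <;>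
      simp [blk, emb, tv, transvection, Matrix.mul_apply, Fin.sum_univ_three, single] <;> ring
  have c02 : ∀ s, Commute (bcl m a b c d h.det) (cl 3 m (tv 0 2 n02 s)) := fun s => by
    have := congrArg (cl 3 m) (e1 s)
    simp only [map_mul, cl_tv_one n02 h.fst, z n12 s h.low, mul_one] at this
    exact this
  have c12 : ∀ s, Commute (bcl m a b c d h.det) (cl 3 m (tv 1 2 n12 s)) := fun s => by
    have := congrArg (cl 3 m) (e2 s)
    simp only [map_mul, cl_tv_one n12 h.last, z n02 s h.snd, one_mul] at this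
    exact this
  have c20 : ∀ s, Commute (bcl m a b c d h.det) (cl 3 m (tv 2 0 n20 s)) := fun s => by
    have := congrArg (cl 3 m) (e3 s)
    simp only [map_mul, cl_tv_one n20 h.fst, z n21 s h.snd, mul_one] at this
    exact this.symm
  have c21 : ∀ s, Commute (bcl m a b c d h.det) (cl 3 m (tv 2 1 n21 s)) := fun s => by
    have := congrArg (cl 3 m) (e4 s)
    simp only [map_mul, cl_tv_one n21 h.last, z n20 s h.low, one_mul] at this
    exact this.symm
  refine induction_tv (p := fun g => Commute (bcl m a b c d h.det) (cl 3 m g)) le_rfl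
    (by simp) (fun i j hij t g hg => ?_) g
  rw [map_mul]
  refine Commute.mul_right ?_ hg
  fin_cases i <;> fin_cases j <;> first | exact absurd rfl hij | skip
  · have := tv_commutator n02 n21 (by decide : (0 : Fin 3) ≠ 1) 1 t
    rw [one_mul] at this
    show Commute _ (cl 3 m (tv 0 1 (by decide) t))
    rw [← this]
    simp only [map_mul, map_inv]
    exact (((c02 _).mul_right (c21 _)).mul_right (c02 _).inv_right).mul_right (c21 _).inv_right
  · exact c02 t
  · have := tv_commutator n12 n20 (by decide : (1 : Fin 3) ≠ 0) 1 t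
    rw [one_mul] at this
    show Commute _ (cl 3 m (tv 1 0 (by decide) t))
    rw [← this]
    simp only [map_mul, map_inv]
    exact (((c12 _).mul_right (c20 _)).mul_right (c12 _).inv_right).mul_right (c20 _).inv_right
  · exact c12 t
  · exact c20 t
  · exact c21 t

/-- The class does not depend on the completion. -/
theorem bcl_congr {a b c d c' d' : ℤ} (h : Row m a b c d) (h' : Row m a b c' d') :
    bcl m a b c d h.det = bcl m a b c' d' h'.det := by
  have e : blk a b c' d' h'.det = tv 1 0 (by decide) (d * c' - c * d') * blk a b c d h.det := by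
    apply Subtype.ext
    show emb a b c' d' = transvection (1 : Fin 3) 0 _ * emb a b c d
    rw [tv10, show (!![1, 0, 0; d * c' - c * d', 1, 0; 0, 0, 1] : Matrix (Fin 3) (Fin 3) ℤ) =
      emb 1 0 (d * c' - c * d') 1 from rfl, emb_mul]
    congr 1 <;>
      first
        | ring1
        | linear_combination (-c') * h.det + c * h'.det
        | linear_combination (-d') * h.det + d * h'.det
  show cl 3 m (blk a b c d h.det) = cl 3 m (blk a b c' d' h'.det)
  rw [e, map_mul, cl_tv_eq_one _ ((h'.low.mul_left d).sub (h.low.mul_right d')), one_mul]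

open Classical in
/-- **The symbol.** -/
def sym (m : ℕ) (a b : ℤ) : SpecialLinearGroup (Fin 3) ℤ ⧸ elem 3 m :=
  if h : ∃ p : ℤ × ℤ, Row m a b p.1 p.2 then bcl m a b _ _ h.choose_spec.det else 1

theorem sym_eq {a b c d : ℤ} (h : Row m a b c d) : sym m a b = bcl m a b c d h.det := by
  have hex : ∃ p : ℤ × ℤ, Row m a b p.1 p.2 := ⟨(c, d), h⟩
  rw [sym, dif_pos hex]
  exact bcl_congr hex.choose_spec h

theorem sym_one {b : ℤ} (hb : (m : ℤ) ∣ b) : sym m 1 b = 1 := by
  have h : Row m 1 b 0 1 := ⟨by ring, by simp, hb, dvd_zero _⟩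
  rw [sym_eq h]
  show cl 3 m _ = 1
  rw [show blk 1 b 0 1 h.det = tv 0 1 (by decide) b from Subtype.ext (tv01 b).symm]
  exact cl_tv_eq_one _ hb

/-- Changing `a` by a multiple of `b`. -/
theorem sym_congr_left {a a' b : ℤ} (ha : (m : ℤ) ∣ a - 1) (hb : (m : ℤ) ∣ b) (hc : IsCoprime a b)
    (hd : b ∣ a' - a) : sym m a' b = sym m a b := by
  obtain ⟨s, hs⟩ := hd
  obtain ⟨c, d, h⟩ := exists_row ha hb hc
  have h' : Row m a' b (c - s * (a - d) - s * s * b) (d - s * b) := by
    refine ⟨by linear_combination h.det + (d - s * b) * hs, ?_, hb, ?_⟩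
    · rw [show a' - 1 = a - 1 + b * s by linear_combination hs]
      exact ha.add (hb.mul_right s)
    · rw [show c - s * (a - d) - s * s * b = c - s * ((a - 1) - (d - 1)) - s * s * b by ring]
      exact (h.low.sub ((ha.sub h.last).mul_left s)).sub (hb.mul_left _)
  have e : blk a' b (c - s * (a - d) - s * s * b) (d - s * b) h'.det =
      tv 1 0 (by decide) (-s) * blk a b c d h.det * tv 1 0 (by decide) s := by
    apply Subtype.ext
    show emb _ _ _ _ = transvection (1 : Fin 3) 0 (-s) * emb a b c d * transvection (1 : Fin 3) 0 s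
    rw [tv10, tv10, show (!![1, 0, 0; -s, 1, 0; 0, 0, 1] : Matrix (Fin 3) (Fin 3) ℤ) =
      emb 1 0 (-s) 1 from rfl, show (!![1, 0, 0; s, 1, 0; 0, 0, 1] : Matrix (Fin 3) (Fin 3) ℤ) =
      emb 1 0 s 1 from rfl, emb_mul, emb_mul]
    congr 1 <;> first | ring1 | linear_combination hs
  rw [sym_eq h', sym_eq h]
  show cl 3 m _ = cl 3 m _
  rw [e, map_mul, map_mul, ← (commute_blk h _).eq, mul_assoc, ← map_mul, ← tv_add, neg_add_cancel,
    tv_zero, map_one, mul_one]

/-- Changing `b` by a multiple of `m a`. -/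
theorem sym_congr_right {a b b' : ℤ} (ha : (m : ℤ) ∣ a - 1) (hb : (m : ℤ) ∣ b)
    (hc : IsCoprime a b) (hd : (m : ℤ) * a ∣ b' - b) : sym m a b' = sym m a b := by
  obtain ⟨s, hs⟩ := hd
  obtain ⟨c, d, h⟩ := exists_row ha hb hc
  have h' : Row m a b' c (d + c * (m * s)) := by
    refine ⟨by linear_combination h.det - c * hs, ha, ?_, h.low⟩
    rw [show b' = b + m * (a * s) by linear_combination hs]
    exact hb.add (dvd_mul_right _ _)
  have e : blk a b' c (d + c * (m * s)) h'.det =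
      blk a b c d h.det * tv 0 1 (by decide) (m * s) := by
    apply Subtype.ext
    show emb _ _ _ _ = emb a b c d * transvection (0 : Fin 3) 1 _
    rw [tv01, show (!![1, (m : ℤ) * s, 0; 0, 1, 0; 0, 0, 1] : Matrix (Fin 3) (Fin 3) ℤ) =
      emb 1 (m * s) 0 1 from rfl, emb_mul]
    congr 1 <;> first | ring1 | linear_combination hs
  rw [sym_eq h', sym_eq h]
  show cl 3 m _ = cl 3 m _
  rw [e, map_mul, cl_tv_eq_one _ (dvd_mul_right _ _), mul_one]

/-- **Multiplicativity.** -/
theorem sym_mul {a₁ a₂ b : ℤ} (ha₁ : (m : ℤ) ∣ a₁ - 1) (ha₂ : (m : ℤ) ∣ a₂ - 1)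
    (hb : (m : ℤ) ∣ b) (hc₁ : IsCoprime a₁ b) (hc₂ : IsCoprime a₂ b) :
    sym m (a₁ * a₂) b = sym m a₁ b * sym m a₂ b := by
  obtain ⟨c₁, d₁, h₁⟩ := exists_row ha₁ hb hc₁
  obtain ⟨c₂, d₂, h₂⟩ := exists_row ha₂ hb hc₂
  have h₃ : Row m (a₁ * a₂) b (c₂ + d₂ * c₁ * a₂) (d₁ * d₂) := by
    refine ⟨by linear_combination a₂ * d₂ * h₁.det + h₂.det, ?_, hb,
      h₂.low.add ((h₁.low.mul_left d₂).mul_right a₂)⟩
    rw [show a₁ * a₂ - 1 = (a₁ - 1) * a₂ + (a₂ - 1) by ring]
    exact (ha₁.mul_right a₂).add ha₂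
  have n21 : (2 : Fin 3) ≠ 1 := by decide
  have n12 : (1 : Fin 3) ≠ 2 := by decide
  have n20 : (2 : Fin 3) ≠ 0 := by decide
  set W := tv 2 1 n21 1 * tv 1 2 n12 (-1) * tv 2 1 n21 1 with hW
  have hW1 : W.1 = !![1, 0, 0; 0, 0, -1; 0, 1, 0] := by
    simp [W, tv, tv21, tv12, mul_fin_three]
  have hW2 : (W⁻¹).1 = !![1, 0, 0; 0, 0, 1; 0, -1, 0] := by
    rw [hW, _root_.mul_inv_rev, _root_.mul_inv_rev, ← tv_neg, ← tv_neg, neg_neg]
    simp [tv, tv21, tv12, mul_fin_three]
  have e : tv 2 1 n21 d₂ * blk a₁ b c₁ d₁ h₁.det * W * blk a₂ b c₂ d₂ h₂.det * W⁻¹ *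
      (tv 1 2 n12 (-a₁) * tv 2 0 n20 (c₁ * a₂) * tv 2 1 n21 d₁) =
      W * blk (a₁ * a₂) b (c₂ + d₂ * c₁ * a₂) (d₁ * d₂) h₃.det := by
    apply Subtype.ext
    simp only [SpecialLinearGroup.coe_mul, hW1, hW2]
    exact mennicke_identity h₁.det
  have := congrArg (cl 3 m) e
  simp only [map_mul, map_inv, cl_tv_eq_one n20 (h₁.low.mul_right a₂), mul_one,
    cl_tv n21 h₂.last, cl_tv n21 h₁.last,
    cl_tv n12 (show (m : ℤ) ∣ -a₁ - (-1) by
      rw [show -a₁ - (-1) = -(a₁ - 1) by ring]; exact ha₁.neg_right)] at this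
  rw [sym_eq h₁, sym_eq h₂, sym_eq h₃]
  set x₁ := bcl m a₁ b c₁ d₁ h₁.det
  set x₂ := bcl m a₂ b c₂ d₂ h₂.det
  set x₃ := bcl m (a₁ * a₂) b _ _ h₃.det
  set t := cl 3 m (tv 2 1 n21 1)
  set w := cl 3 m W
  have hw : w = t * cl 3 m (tv 1 2 n12 (-1)) * t := by simp only [w, t, hW, map_mul]
  have k1 : Commute x₁ w := commute_blk h₁ W
  have k2 : Commute x₂ w := commute_blk h₂ W
  have k1' : Commute x₁ t := commute_blk h₁ _
  have k2' : Commute x₂ t := commute_blk h₂ _
  have : w * (x₁ * x₂) = w * x₃ := by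
    rw [← this, mul_assoc (t * x₁) w x₂, ← k2.eq, ← mul_assoc (t * x₁) x₂ w, mul_assoc _ w w⁻¹,
      mul_inv_cancel, mul_one, mul_assoc t x₁ x₂, ← ((k1'.mul_left k2')).eq, mul_assoc (x₁ * x₂),
      ← mul_assoc t, ← hw, (k1.mul_left k2).eq]
  exact (mul_left_cancel this).symm

theorem sym_pow {a b : ℤ} (ha : (m : ℤ) ∣ a - 1) (hb : (m : ℤ) ∣ b) (hc : IsCoprime a b) (k : ℕ) :
    sym m (a ^ k) b = sym m a b ^ k := by
  induction k with
  | zero => simp [sym_one hb]
  | succ k ih =>
    rw [pow_succ, pow_succ, sym_mul (ha.trans (sub_one_dvd_pow_sub_one a k)) ha hb hc.pow_left hc,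
      ih]

theorem sym_pow_eq_one {a b : ℤ} (ha : (m : ℤ) ∣ a - 1) (hb : (m : ℤ) ∣ b) (hc : IsCoprime a b)
    {k : ℕ} (hk : b ∣ a ^ k - 1) : sym m a b ^ k = 1 := by
  rw [← sym_pow ha hb hc, sym_congr_left (a := 1) (by simp) hb isCoprime_one_left hk, sym_one hb]

/-- **Transposition**: the order modulo `c` also kills the symbol. -/
theorem sym_pow_eq_one_of_transpose {a b c d : ℤ} (h : Row m a b c d) {k : ℕ}
    (hk : c ∣ a ^ k - 1) : sym m a b ^ k = 1 := by
  have ht : Row m a c b d := ⟨by linear_combination h.det, h.fst, h.low, h.snd⟩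
  have h1 := sym_pow_eq_one h.fst h.low (isCoprime_comm.1 ⟨-b, d, by linear_combination h.det⟩) hk
  rw [sym_eq ht, ← map_pow, cl_eq_one] at h1
  rw [sym_eq h, ← map_pow, cl_eq_one]
  have hx : dual 3 (blk a c b d ht.det) = (blk a b c d h.det)⁻¹ := by
    refine inv_inj.2 (Subtype.ext ?_)
    show (emb a c b d)ᵀ = emb a b c d
    ext i j
    fin_cases i <;> fin_cases j <;> simp [emb]
  have := dual_mem_elem h1
  rw [map_pow, hx, inv_pow] at this
  exact (Subgroup.inv_mem_iff _).1 this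

end FA.CongruenceSL

end
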