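import Fermat.Agent.CongruenceSL.Symbol
import Mathlib.NumberTheory.LSeries.PrimesInAP
import Mathlib.NumberTheory.LegendreSymbol.JacobiSymbol
import Mathlib.FieldTheory.Finite.Basic
import Mathlib.GroupTheory.OrderOfElement

/-!
# The symbol is trivial

Primes in progressions make the first entry a square; the real place fixes the sign. The two orders
killing the symbol then have greatest common divisor two.
-/

set_option autoImplicit false

noncomputable section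

namespace FA.CongruenceSL

open FA.CarterKeller
open scoped NumberTheorySymbols

/-- Fermat's little theorem modulo `m p`. -/
theorem dvd_pow_card_sub_one {m p : ℕ} (hp : p.Prime) (hpm : Nat.Coprime m p) {u : ℤ}
    (hu : (m : ℤ) ∣ u - 1) (hup : ¬ (p : ℤ) ∣ u) : (m : ℤ) * p ∣ u ^ (p - 1) - 1 := by
  refine (Nat.isCoprime_iff_coprime.2 hpm).mul_dvd (hu.trans (sub_one_dvd_pow_sub_one u _)) ?_
  have : Fact p.Prime := ⟨hp⟩
  rw [← ZMod.intCast_zmod_eq_zero_iff_dvd] at hup ⊢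
  push_cast
  rw [ZMod.pow_card_sub_one_eq_one hup, sub_self]

/-- A prime in a progression, beyond a bound. -/
theorem exists_prime_above {M : ℕ} (hM : M ≠ 0) {z : ℤ} (hz : IsCoprime z M) (B : ℕ) :
    ∃ p, B < p ∧ p.Prime ∧ (M : ℤ) ∣ (p : ℤ) - z := by
  obtain ⟨p, h1, h2, h3⟩ := Nat.forall_exists_prime_gt_and_zmodEq B hM hz
  exact ⟨p, h1, h2, h3.symm.dvd⟩

/-- **The square of a symbol with prime second entry is trivial.** -/
theorem sym_sq_eq_one {m : ℕ} (hm : 0 < m) {p : ℕ} (hp : p.Prime) (hp4 : p % 4 = 3) (hpm : m < p)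
    {ε : ℤ} (hε : ε = 1 ∨ ε = -1) {u : ℕ} (hu : u.Prime) (hup : p < u)
    (hu1 : (m : ℤ) ∣ (u : ℤ) - 1) : sym m (u : ℤ) (ε * m * p) ^ 2 = 1 := by
  have hp3 : 3 ≤ p := by omega
  have hcm : Nat.Coprime m p :=
    (hp.coprime_iff_not_dvd.2 fun h => (Nat.le_of_dvd hm h).not_gt hpm).symm
  have hun : ∀ {x : ℕ}, 0 < x → x < u → IsCoprime (u : ℤ) x := fun hx hxu =>
    Nat.isCoprime_iff_coprime.2
      (hu.coprime_iff_not_dvd.2 fun h => (Nat.le_of_dvd hx h).not_gt hxu)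
  have hεu : IsUnit ε := Int.isUnit_iff.2 hε
  have hum : IsCoprime (u : ℤ) m := hun hm (hpm.trans hup)
  have hupc : IsCoprime (u : ℤ) p := hun (by omega) hup
  have hb : (m : ℤ) ∣ ε * m * p := (dvd_mul_left _ ε).mul_right _
  have hcop : IsCoprime (u : ℤ) (ε * m * p) :=
    ((isCoprime_mul_unit_left_right hεu _ _).2 hum).mul_right hupc
  obtain ⟨d₀, c₁, e⟩ : ∃ d₀ c₁ : ℤ, (u : ℤ) * d₀ - ε * m * p * (m * c₁) = 1 := by
    obtain ⟨x, y, hxy⟩ := hcop.mul_right hum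
    exact ⟨x, -y, by linear_combination hxy⟩
  set r := (p - 1) / 2
  set N := 4 * r
  have hN0 : N ≠ 0 := by simp only [N, r]; omega
  have huN : IsCoprime (u : ℤ) (N : ℤ) := by
    simp only [N]
    push_cast
    have hu4 : u ≠ 4 := fun h => absurd (h ▸ hu : Nat.Prime 4) (by decide)
    exact (hun (x := 4) (by norm_num) (by omega)).mul_right (hun (by omega) (by omega))
  obtain ⟨v, w, hvw⟩ := huN
  set z := c₁ + u * (v * (-1 - c₁)) with hz'
  have hzN : z = -1 + N * (-(w * (-1 - c₁))) := by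
    simp only [z]
    linear_combination (-1 - c₁) * hvw
  have hc₁u : IsCoprime c₁ (u : ℤ) := ⟨-(ε * m * p * m), d₀, by linear_combination e⟩
  have hz : IsCoprime z ((u * N : ℕ) : ℤ) := by
    push_cast
    exact IsCoprime.mul_right (by rw [hz']; exact hc₁u.add_mul_left_left _)
      (by rw [hzN]; exact isCoprime_one_left.neg_left.add_mul_left_left _)
  obtain ⟨q, hq1, hq, t, ht⟩ := exists_prime_above (Nat.mul_ne_zero hu.ne_zero hN0) hz (max m u)
  push_cast at ht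
  have hqm : m < q := (le_max_left _ _).trans_lt hq1
  have hqu : u < q := (le_max_right _ _).trans_lt hq1
  have hqN : (N : ℤ) ∣ (q : ℤ) + 1 :=
    ⟨(u : ℤ) * t - w * (-1 - c₁), by linear_combination ht + hzN⟩
  set d := d₀ + ε * m * p * m * (v * (-1 - c₁) + N * t)
  have hrow : Row m (u : ℤ) (ε * m * p) (m * q) d := by
    refine ⟨?_, hu1, hb, dvd_mul_right _ _⟩
    simp only [d, z] at ht ⊢
    linear_combination e - ε * m * p * m * ht
  have h1 : sym m (u : ℤ) (ε * m * p) ^ (p - 1) = 1 := by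
    refine sym_pow_eq_one hu1 hb hcop ?_
    rw [mul_assoc]
    exact (hεu.mul_left_dvd).2 (dvd_pow_card_sub_one hp hcm hu1 fun h =>
      hp.ne_one (Int.natCast_inj.1 (Int.eq_one_of_dvd_one (by positivity)
        (by obtain ⟨x, y, hxy⟩ := hupc; exact hxy ▸ (h.mul_left x).add (dvd_mul_left _ y)))))
  have h2 : sym m (u : ℤ) (ε * m * p) ^ (q - 1) = 1 := by
    refine sym_pow_eq_one_of_transpose hrow ?_
    refine dvd_pow_card_sub_one hq ?_ hu1 fun h => ?_
    · exact (hq.coprime_iff_not_dvd.2 fun h => (Nat.le_of_dvd hm h).not_gt hqm).symm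
    · exact (Nat.le_of_dvd hu.pos (Int.natCast_dvd_natCast.1 h)).not_gt hqu
  have hg : Nat.gcd (p - 1) (q - 1) ∣ 2 := by
    have d1 : Nat.gcd (p - 1) (q - 1) ∣ p - 1 := Nat.gcd_dvd_left _ _
    have d2 : Nat.gcd (p - 1) (q - 1) ∣ q - 1 := Nat.gcd_dvd_right _ _
    have d3 : Nat.gcd (p - 1) (q - 1) ∣ q + 1 := by
      refine dvd_trans (d1.trans ?_) (Int.natCast_dvd_natCast.1 (by exact_mod_cast hqN : (N : ℤ) ∣
        ((q + 1 : ℕ) : ℤ)))
      exact ⟨2, by simp only [N, r]; omega⟩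
    have := Nat.dvd_sub d3 d2
    rwa [show q + 1 - (q - 1) = 2 by have := hq.one_le; omega] at this
  obtain ⟨k, hk⟩ := hg
  rw [hk, pow_mul, pow_gcd_eq_one.2 ⟨h1, h2⟩, one_pow]

theorem exists_negative_shift {m p : ℕ} {a : ℤ} (hm : 0 < m) (hp : p.Prime) (hp2 : 2 < p)
    (ha : (m : ℤ) ∣ a - 1) : ∃ s : ℤ, a + m * p * s < 0 ∧ (a + m * p * s) % 4 = 1 := by
  have hpo : p % 2 = 1 := hp.eq_two_or_odd.resolve_left (by omega)
  obtain ⟨s₀, hs₀⟩ : ∃ s₀ : ℤ, (a + m * p * s₀) % 4 = 1 := by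
    rcases Nat.even_or_odd m with ⟨m', hm'⟩ | hmo
    · obtain ⟨k, hk⟩ := ha
      rcases Nat.even_or_odd m' with ⟨m'', hm''⟩ | hmo'
      · refine ⟨0, ?_⟩
        rw [show a + (m : ℤ) * p * 0 = 1 + 4 * (m'' * k) by
          subst hm'' hm'; push_cast at hk ⊢; linear_combination hk]
        omega
      · refine ⟨-k, ?_⟩
        obtain ⟨o, ho⟩ := hmo'
        obtain ⟨o', ho'⟩ : Odd p := Nat.odd_iff.2 hpo
        rw [show a + (m : ℤ) * p * -k = 1 + 4 * (-((2 * o + 1) * o' * k)) by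
          subst hm' ho ho'; push_cast at hk ⊢; linear_combination hk]
        omega
    · obtain ⟨o, ho⟩ : Odd (m * p) := hmo.mul (Nat.odd_iff.2 hpo)
      refine ⟨(m : ℤ) * p * (1 - a), ?_⟩
      rw [show a + (m : ℤ) * p * (m * p * (1 - a)) = 1 + 4 * ((o * o + o) * (1 - a)) by
        have : (m : ℤ) * p = 2 * o + 1 := by exact_mod_cast ho
        rw [← mul_assoc, this]; ring]
      omega
  set x := a + (m : ℤ) * p * s₀
  have hmp : (1 : ℤ) ≤ m * p := by exact_mod_cast Nat.mul_pos hm hp.pos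
  refine ⟨s₀ - 4 * (|x| + 1), ?_, ?_⟩
  · rw [show a + (m : ℤ) * p * (s₀ - 4 * (|x| + 1)) = x - 4 * (|x| + 1) * (m * p) by
      simp only [x]; ring]
    nlinarith [le_abs_self x, abs_nonneg x,
      mul_le_mul_of_nonneg_left hmp (by positivity : (0 : ℤ) ≤ 4 * (|x| + 1))]
  · rw [show a + (m : ℤ) * p * (s₀ - 4 * (|x| + 1)) = x + 4 * (-((|x| + 1) * (m * p))) by
      simp only [x]; ring]
    omega

/-- **The symbol is trivial.** -/
theorem sym_eq_one {m : ℕ} (hm : 0 < m) {a b : ℤ} (ha : (m : ℤ) ∣ a - 1) (hb : (m : ℤ) ∣ b)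
    (hc : IsCoprime a b) : sym m a b = 1 := by
  wlog ha0 : a ≠ 0 generalizing a with H
  · rw [not_not] at ha0
    subst ha0
    have hb' : IsUnit b := isCoprime_zero_left.1 hc
    rw [← sym_congr_left ha hb hc (a' := b) (by simp)]
    exact H (dvd_trans (Int.natCast_dvd_natCast.2 (dvd_refl m)) (by
      rw [show b - 1 = b + (0 - 1) by ring]; exact hb.add ha)) (isCoprime_self.2 hb')
      hb'.ne_zero
  obtain ⟨b₁, rfl⟩ := hb
  have hM : a.natAbs ≠ 0 := Int.natAbs_ne_zero.2 ha0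
  have hcop₁ : IsCoprime b₁ (a.natAbs : ℤ) := by
    rcases Int.natAbs_eq a with h | h <;> have := hc.of_mul_right_right.symm
    · rwa [← h]
    · rw [h] at this; exact IsCoprime.neg_right_iff _ _ |>.1 this
  obtain ⟨p₁, hp₁, hp₁p, hp₁d⟩ := exists_prime_above hM hcop₁ (max m 2)
  rw [Int.natAbs_dvd] at hp₁d
  have hcop : IsCoprime a ((m : ℤ) * p₁) := by
    obtain ⟨t, ht⟩ := hp₁d
    refine hc.of_mul_right_left.mul_right ?_
    rw [show (p₁ : ℤ) = b₁ + a * t by linear_combination ht]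
    exact hc.of_mul_right_right.add_mul_left_right t
  rw [← sym_congr_right ha (dvd_mul_right _ _) hc (b' := m * p₁)
    (by rw [← mul_sub]; exact mul_dvd_mul_left _ hp₁d)]
  obtain ⟨s, hneg, h4⟩ := exists_negative_shift hm hp₁p (lt_of_le_of_lt (le_max_right _ _) hp₁) ha
  rw [← sym_congr_left ha (dvd_mul_right _ _) hcop (a' := a + m * p₁ * s) (by simp)]
  have ha' : (m : ℤ) ∣ a + m * p₁ * s - 1 := by
    rw [show a + (m : ℤ) * p₁ * s - 1 = a - 1 + m * (p₁ * s) by ring]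
    exact ha.add (dvd_mul_right _ _)
  have hcop' : IsCoprime (a + m * p₁ * s) ((m : ℤ) * p₁) := hcop.add_mul_left_left s
  obtain ⟨r, hr⟩ : ∃ r : ℕ, a + (m : ℤ) * p₁ * s = -(r : ℤ) :=
    ⟨(a + (m : ℤ) * p₁ * s).natAbs, by omega⟩
  rw [hr] at ha' hcop' h4 ⊢
  have hr4 : r % 4 = 3 := by omega
  have hrp : IsCoprime (r : ℤ) p₁ := (IsCoprime.neg_left_iff _ _).1 hcop'.of_mul_right_right
  set ε := J((p₁ : ℤ) | r) with hεdef
  have hε : ε = 1 ∨ ε = -1 := jacobiSym.eq_one_or_neg_one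
    (by rw [Int.gcd_comm]; exact Int.isCoprime_iff_gcd_eq_one.1 hrp)
  have hεu : IsUnit ε := Int.isUnit_iff.2 hε
  set z := ε * p₁ + (r : ℤ) ^ 2 * (3 - ε * p₁) with hz'
  obtain ⟨r', hr'⟩ : ∃ r' : ℕ, r = 4 * r' + 3 := ⟨r / 4, by omega⟩
  have hz : IsCoprime z ((r * 4 : ℕ) : ℤ) := by
    push_cast
    refine IsCoprime.mul_right ?_ ?_
    · rw [show z = ε * p₁ + r * (r * (3 - ε * p₁)) by simp only [z]; ring]
      exact ((isCoprime_mul_unit_left_left hεu _ _).2 hrp.symm).add_mul_left_left _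
    · rw [show z = -1 + 4 * (1 + (4 * (r' : ℤ) ^ 2 + 6 * r' + 2) * (3 - ε * p₁)) by
        simp only [z, hr']; push_cast; ring]
      exact isCoprime_one_left.neg_left.add_mul_left_left _
  obtain ⟨p, hp1, hp, hpd⟩ := exists_prime_above (by omega) hz (max m r)
  push_cast at hpd
  obtain ⟨t, ht⟩ := hpd
  have hpm : m < p := (le_max_left _ _).trans_lt hp1
  have hpr : r < p := (le_max_right _ _).trans_lt hp1
  have hp4 : p % 4 = 3 := by
    have : (p : ℤ) = 4 * ((r : ℤ) * t + 1 +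
        (4 * (r' : ℤ) ^ 2 + 6 * r' + 2) * (3 - ε * p₁)) - 1 := by
      simp only [z] at ht
      rw [hr'] at ht ⊢
      push_cast at ht ⊢
      linear_combination ht
    omega
  have hdiff : (r : ℤ) ∣ (p : ℤ) - ε * p₁ :=
    ⟨r * (3 - ε * p₁) + 4 * t, by simp only [z] at ht; linear_combination ht⟩
  have hεε : ε * ε = 1 := by rcases hε with h | h <;> rw [h] <;> norm_num
  have hpc : IsCoprime (-(r : ℤ)) (p : ℤ) := (Nat.isCoprime_iff_coprime.2
    (hp.coprime_iff_not_dvd.2 fun h => (Nat.le_of_dvd (by omega) h).not_gt hpr).symm).neg_left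
  have hb' : (m : ℤ) ∣ ε * m * p := (dvd_mul_left _ ε).mul_right _
  have hcop'' : IsCoprime (-(r : ℤ)) (ε * m * p) :=
    ((isCoprime_mul_unit_left_right hεu _ _).2 hcop'.of_mul_right_left).mul_right hpc
  rw [← sym_congr_right ha' (dvd_mul_right _ _) hcop' (b' := ε * m * p) (by
    obtain ⟨k, hk⟩ := hdiff
    exact ⟨-(ε * k), by linear_combination (ε * m) * hk + (m : ℤ) * p₁ * hεε⟩)]
  -- the first entry is a square modulo the prime
  have hJ : J(-(r : ℤ) | p) = 1 := by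
    have hεJ : J((p : ℤ) | r) = J(ε | r) * ε := by
      rw [hεdef, ← jacobiSym.mul_left, ← hεdef]
      exact jacobiSym.mod_left' (Int.emod_eq_emod_iff_emod_sub_eq_zero.2
        (Int.emod_eq_zero_of_dvd hdiff))
    rw [show (-(r : ℤ)) = -1 * (r : ℤ) by ring, jacobiSym.mul_left,
      jacobiSym.at_neg_one (Nat.odd_iff.2 (by omega)), ZMod.χ₄_nat_three_mod_four hp4,
      jacobiSym.quadratic_reciprocity_three_mod_four hr4 hp4, hεJ]
    rcases hε with h | h <;> rw [h]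
    · rw [jacobiSym.one_left]
      norm_num
    · rw [jacobiSym.at_neg_one (Nat.odd_iff.2 (by omega)), ZMod.χ₄_nat_three_mod_four hr4]
      norm_num
  have : Fact p.Prime := ⟨hp⟩
  obtain ⟨x, hx⟩ := ZMod.isSquare_of_jacobiSym_eq_one hJ
  have hxv : ¬ (p : ℤ) ∣ (x.val : ℤ) := fun h => by
    have hx0 : x = 0 := by
      have := (ZMod.intCast_zmod_eq_zero_iff_dvd _ p).2 h
      simpa using this
    rw [hx0, mul_zero, ZMod.intCast_zmod_eq_zero_iff_dvd] at hx
    exact (Nat.prime_iff_prime_int.1 hp).not_isUnit (hpc.isUnit_of_dvd' hx (dvd_refl (p : ℤ)))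
  have hmp : Nat.Coprime m p :=
    (hp.coprime_iff_not_dvd.2 fun h => (Nat.le_of_dvd hm h).not_gt hpm).symm
  obtain ⟨α, β, hαβ⟩ := Nat.isCoprime_iff_coprime.2 hmp
  set z₂ := 1 + (m : ℤ) * (α * ((x.val : ℤ) - 1)) with hz₂'
  have hz₂x : z₂ = (x.val : ℤ) + p * (-(β * ((x.val : ℤ) - 1))) := by
    simp only [z₂]
    linear_combination ((x.val : ℤ) - 1) * hαβ
  have hz₂ : IsCoprime z₂ ((m * p : ℕ) : ℤ) := by
    push_cast
    refine IsCoprime.mul_right (by rw [hz₂']; exact isCoprime_one_left.add_mul_left_left _) ?_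
    rw [hz₂x]
    exact ((Prime.coprime_iff_not_dvd (Nat.prime_iff_prime_int.1 hp)).2
      hxv).symm.add_mul_left_left _
  obtain ⟨u, hu1, hu, w, hw⟩ := exists_prime_above (Nat.mul_ne_zero hm.ne' hp.ne_zero) hz₂ p
  push_cast at hw
  have hum : (m : ℤ) ∣ (u : ℤ) - 1 :=
    ⟨α * ((x.val : ℤ) - 1) + p * w, by simp only [z₂] at hw; linear_combination hw⟩
  have hux : ((u : ℤ) : ZMod p) = x := by
    have h : (p : ℤ) ∣ (u : ℤ) - (x.val : ℤ) :=
      ⟨(m : ℤ) * w - β * ((x.val : ℤ) - 1), by linear_combination hw + hz₂x⟩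
    rw [← ZMod.intCast_zmod_eq_zero_iff_dvd, Int.cast_sub, sub_eq_zero] at h
    simpa using h
  have hsq : ε * m * p ∣ (u : ℤ) ^ 2 - -(r : ℤ) := by
    rw [mul_assoc]
    refine hεu.mul_left_dvd.2 ((Nat.isCoprime_iff_coprime.2 hmp).mul_dvd ?_ ?_)
    · rw [show (u : ℤ) ^ 2 - -(r : ℤ) = ((u : ℤ) - 1) * ((u : ℤ) + 1) - (-(r : ℤ) - 1) by ring]
      exact (hum.mul_right _).sub ha'
    · rw [← ZMod.intCast_zmod_eq_zero_iff_dvd]
      push_cast at hx hux ⊢
      rw [hux, hx]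
      ring
  have huc : IsCoprime (u : ℤ) (ε * m * p) := by
    refine ((isCoprime_mul_unit_left_right hεu _ _).2 ?_).mul_right ?_ <;>
      refine Nat.isCoprime_iff_coprime.2 (hu.coprime_iff_not_dvd.2 fun h => ?_)
    · exact (Nat.le_of_dvd hm h).not_gt (hpm.trans hu1)
    · exact (Nat.le_of_dvd hp.pos h).not_gt hu1
  rw [← sym_congr_left ha' hb' hcop'' hsq, sym_pow hum hb' huc]
  exact sym_sq_eq_one hm hp hp4 hpm hε hu hu1 hum

end FA.CongruenceSL

end
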